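/-
S19 project, package GF (helper2747): the modular function field over `Qbar` is a curve in the sense of
the Prelude class `AlgebraicCurve.IsCurveOver`, and is essentially of finite type; both from the landed
S24 library.  (Same argument as the S17 bridge files of helper4836 / helper3058; restated here in the
S19 namespace so that the S19 tree does not depend on the S17 tree.)
-/
import Fermat.Agent.S24.Degree
import Fermat.Agent.S24.RiemannHurwitz
import Fermat.Prelude.Def_AlgebraicCurve_IsCurveOver

set_option autoImplicit false

open ModularCurve AlgebraicCurve IntermediateField KaehlerDifferential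

namespace Fermat.Agent.S19.Fin2747

section Generic

variable {K F : Type*} [Field K] [Field F] [Algebra K F]

/-- Principal divisors exist and have degree zero, for a field finite over `K(x)`. -/
theorem hasPrincipalDivisors_of_finite [IsAlgClosed K] [CharZero K] (x : F)
    (hx : Transcendental K x) [FiniteDimensional K⟮x⟯ F] : HasPrincipalDivisors K F := by
  classical
  refine ⟨fun f _ => ?_⟩
  obtain ⟨T, hT, hsum⟩ := Fermat.Agent.S24.A564.exists_finset_sum_ord_eq_zero x hx f
  refine ⟨Finsupp.onFinset T (fun v => v.ord f) (fun v hv => ?_), fun v => rfl, ?_⟩
  · by_contra hvT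
    exact hv (hT v hvT)
  · set D : Divisor K F := Finsupp.onFinset T (fun v => v.ord f) (fun v hv => by
      by_contra hvT
      exact hv (hT v hvT)) with hD
    have hsupp : D.support ⊆ T := Finsupp.support_onFinset_subset
    have h1 : Divisor.degree D = ∑ v ∈ D.support, D v := by
      unfold Divisor.degree
      rw [Finsupp.liftAddHom_apply, Finsupp.sum]
      refine Finset.sum_congr rfl fun v _ => ?_
      simp [Fermat.Agent.S24.A564.deg_eq_one x hx v]
    rw [h1, Finset.sum_subset hsupp fun v _ hv => by simpa using hv]
    exact hsum

/-- Residue fields of places are finite over the constants. -/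
theorem finite_residueField_of_finite [IsAlgClosed K] [CharZero K] (x : F)
    (hx : Transcendental K x) [FiniteDimensional K⟮x⟯ F] (v : Place K F) :
    Module.Finite K v.ResidueField := by
  obtain ⟨_, hres⟩ := Fermat.Agent.S24.A564.local_facts x hx v
  exact Module.Finite.of_surjective (Algebra.linearMap K v.ResidueField) hres

/-- A field that is finite over `K(x)`, `x` transcendental, is a curve over `K`. -/
theorem isCurveOver_of_finite [IsAlgClosed K] [CharZero K] (x : F)
    (hx : Transcendental K x) [FiniteDimensional K⟮x⟯ F] : IsCurveOver K F :=
  { toHasPrincipalDivisors := hasPrincipalDivisors_of_finite x hx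
    finiteResidue := finite_residueField_of_finite x hx
    kaehler_free_rank_one :=
      ⟨Module.Free.of_divisionRing F Ω[F⁄K], Fermat.Agent.S24.A564.KR.finrank_kaehler x hx⟩ }

end Generic

/-- The modular function field over `Qbar` is a curve. -/
theorem isCurveOver_modular (N : ℕ) [NeZero N] :
    IsCurveOver (AlgebraicClosure ℚ) ↥(modularFunctionFieldBar N) := by
  have := Fermat.Agent.S24.finiteDimensional_jBar N
  exact isCurveOver_of_finite (Fermat.Agent.S24.jBar N) (Fermat.Agent.S24.jBar_transcendental N)

/-- The modular function field over `Qbar` is essentially of finite type. -/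
theorem essFiniteType_modular (N : ℕ) [NeZero N] :
    Algebra.EssFiniteType (AlgebraicClosure ℚ) ↥(modularFunctionFieldBar N) := by
  have := Fermat.Agent.S24.finiteDimensional_jBar N
  exact Fermat.Agent.S24.A564.essFiniteType_of_finite (Fermat.Agent.S24.jBar N)

end Fermat.Agent.S19.Fin2747
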